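import Fermat.Agent.Gamma0Comb.Orbits

/-!
# The index of `Γ₀(N)` is `dedekindPsi N`
-/

set_option autoImplicit false

namespace Fermat.Agent.Gamma0Comb

open CongruenceSubgroup
open scoped MatrixGroups

/-! ### Lifting unimodular vectors -/

/-- A pair of integers which is unimodular mod `N` is congruent mod `N` to the first
column of a matrix in `SL(2, ℤ)`. -/
lemma exists_col_lift (N : ℕ) [NeZero N] (v : ZMod N × ZMod N) (hv : IsCoprime v.1 v.2) :
    ∃ g : SL(2, ℤ), ((g 0 0 : ℤ) : ZMod N) = v.1 ∧ ((g 1 0 : ℤ) : ZMod N) = v.2 := by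
  have hN0 : N ≠ 0 := NeZero.ne N
  -- integers lifting
  obtain ⟨a, ha⟩ : ∃ a : ℤ, (a : ZMod N) = v.1 := ⟨v.1.cast, by simp⟩
  obtain ⟨c, hc, hc0⟩ : ∃ c : ℤ, (c : ZMod N) = v.2 ∧ c ≠ 0 := by
    by_cases h : v.2 = 0
    · exact ⟨N, by simp [h], by exact_mod_cast hN0⟩
    · refine ⟨v.2.cast, by simp, ?_⟩
      intro h2
      apply h
      have : ((v.2.cast : ℤ) : ZMod N) = v.2 := by simp
      rw [← this, h2, Int.cast_zero]
  -- `gcd (a, N)` is coprime to `c`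
  set h : ℕ := Int.gcd a N with hh
  have hpos : 0 < h := Int.gcd_pos_of_ne_zero_right _ (by exact_mod_cast hN0)
  obtain ⟨a', ha'⟩ : (h : ℤ) ∣ a := Int.gcd_dvd_left a N
  obtain ⟨N', hN'⟩ : h ∣ N := Int.natCast_dvd_natCast.1 (Int.gcd_dvd_right a N)
  have hN'0 : N' ≠ 0 := by
    rintro rfl
    exact hN0 (by rw [hN', mul_zero])
  have hcop : IsCoprime a' (N' : ℤ) := by
    have h1 : (h : ℤ) = a * Int.gcdA a N + N * Int.gcdB a N := Int.gcd_eq_gcd_ab a N
    refine ⟨Int.gcdA a N, Int.gcdB a N, ?_⟩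
    have h2 : (h : ℤ) * (Int.gcdA a N * a' + Int.gcdB a N * N') = h * 1 := by
      have h3 : (N : ℤ) = h * N' := by exact_mod_cast hN'
      calc (h : ℤ) * (Int.gcdA a N * a' + Int.gcdB a N * N')
          = (h * a') * Int.gcdA a N + (h * N') * Int.gcdB a N := by ring
        _ = a * Int.gcdA a N + N * Int.gcdB a N := by rw [← ha', ← h3]
        _ = h * 1 := by rw [← h1, mul_one]
    exact mul_left_cancel₀ (by exact_mod_cast hpos.ne') h2
  have hhc : IsCoprime (h : ℤ) c := by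
    obtain ⟨x, y, hxy⟩ := hv
    obtain ⟨X, hX⟩ : ∃ X : ℤ, (X : ZMod N) = x := ⟨x.cast, by simp⟩
    obtain ⟨Y, hY⟩ : ∃ Y : ℤ, (Y : ZMod N) = y := ⟨y.cast, by simp⟩
    have h1 : ((X * a + Y * c - 1 : ℤ) : ZMod N) = 0 := by
      push_cast
      rw [hX, hY, ha, hc, hxy, sub_self]
    rw [ZMod.intCast_zmod_eq_zero_iff_dvd] at h1
    obtain ⟨k, hk⟩ := h1
    have h3 : (N : ℤ) = h * N' := by exact_mod_cast hN'
    refine ⟨X * a' - N' * k, Y, ?_⟩
    rw [ha', h3] at hk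
    linear_combination hk
  -- lift `a'` to a unit modulo `N' * |c|`
  have hNc0 : N' * c.natAbs ≠ 0 := mul_ne_zero hN'0 (Int.natAbs_ne_zero.2 hc0)
  obtain ⟨z, w, hzw⟩ := hcop
  have h1 : ((z : ℤ) : ZMod N') * ((a' : ℤ) : ZMod N') = 1 := by
    have := congrArg (fun x : ℤ => (x : ZMod N')) hzw
    simpa using this
  let u : (ZMod N')ˣ := ⟨(a' : ZMod N'), (z : ZMod N'), by rw [mul_comm]; exact h1, h1⟩
  obtain ⟨A', hA'cop, hA'⟩ := exists_lift hNc0 (Dvd.intro _ rfl : N' ∣ N' * c.natAbs) u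
  have hA'c : IsCoprime A' c := by
    have h2 : IsCoprime A' ((N' : ℤ) * (c.natAbs : ℤ)) := by exact_mod_cast hA'cop
    have h3 := IsCoprime.of_mul_right_right h2
    rcases Int.natAbs_eq c with h4 | h4
    · rw [h4]; exact h3
    · rw [h4]; exact h3.neg_right
  have hAc : IsCoprime ((h : ℤ) * A') c := hhc.mul_left hA'c
  obtain ⟨g, hg0, hg1⟩ := hAc.exists_SL2_col 0
  refine ⟨g, ?_, by rw [hg1, hc]⟩
  rw [hg0, ← ha, ← sub_eq_zero]
  have h5 : ((A' - a' : ℤ) : ZMod N') = 0 := by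
    push_cast
    rw [hA']
    exact sub_self _
  rw [ZMod.intCast_zmod_eq_zero_iff_dvd] at h5
  obtain ⟨k, hk⟩ := h5
  have h6 : (((h : ℤ) * A' - a : ℤ) : ZMod N) = 0 := by
    rw [ZMod.intCast_zmod_eq_zero_iff_dvd]
    refine ⟨k, ?_⟩
    have h3 : (N : ℤ) = h * N' := by exact_mod_cast hN'
    rw [h3, ha']
    linear_combination (h : ℤ) * hk
  rw [← h6]
  push_cast
  ring

/-! ### Counting unimodular vectors -/

/-- Unimodular vectors -/
abbrev Uni (R : Type*) [CommRing R] : Type _ := {v : R × R // IsCoprime v.1 v.2}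

/-- The (non canonical) bijection `X × (ℤ/N)ˣ → Uni (ℤ/N)`. -/
noncomputable def toUni (N : ℕ) (x : (SL(2, ℤ) ⧸ Gamma0 N) × (ZMod N)ˣ) : Uni (ZMod N) :=
  ⟨((x.2 : ZMod N) * ((x.1.out 0 0 : ℤ) : ZMod N), (x.2 : ZMod N) * ((x.1.out 1 0 : ℤ) : ZMod N)), by
    have h := det_mod N x.1.out
    refine ⟨((x.2⁻¹ : (ZMod N)ˣ) : ZMod N) * ((x.1.out 1 1 : ℤ) : ZMod N),
      - ((x.2⁻¹ : (ZMod N)ˣ) : ZMod N) * ((x.1.out 0 1 : ℤ) : ZMod N), ?_⟩
    have h2 : ((x.2⁻¹ : (ZMod N)ˣ) : ZMod N) * (x.2 : ZMod N) = 1 := Units.inv_mul _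
    linear_combination (((x.2⁻¹ : (ZMod N)ˣ) : ZMod N) * (x.2 : ZMod N)) * h + h2⟩

lemma toUni_bijective (N : ℕ) [NeZero N] : Function.Bijective (toUni N) := by
  constructor
  · rintro ⟨x, u⟩ ⟨y, v⟩ h
    have h0 : (u : ZMod N) * ((x.out 0 0 : ℤ) : ZMod N) = (v : ZMod N) * ((y.out 0 0 : ℤ) : ZMod N) :=
      congrArg (fun z => z.1.1) h
    have h1 : (u : ZMod N) * ((x.out 1 0 : ℤ) : ZMod N) = (v : ZMod N) * ((y.out 1 0 : ℤ) : ZMod N) :=
      congrArg (fun z => z.1.2) h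
    have hxy : x = y := by
      rw [← x.out_eq', ← y.out_eq']
      have h2 : (u : ZMod N) * (((x.out 0 0 : ℤ) : ZMod N) * ((y.out 1 0 : ℤ) : ZMod N) -
        ((x.out 1 0 : ℤ) : ZMod N) * ((y.out 0 0 : ℤ) : ZMod N)) = 0 := by
        linear_combination ((y.out 1 0 : ℤ) : ZMod N) * h0 - ((y.out 0 0 : ℤ) : ZMod N) * h1
      exact (mk_eq_mk_iff _ _).2 ((Units.mul_right_eq_zero u).1 h2)
    subst hxy
    congr 1
    apply Units.ext
    have hd := det_mod N x.out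
    linear_combination ((x.out 1 1 : ℤ) : ZMod N) * h0 - ((x.out 0 1 : ℤ) : ZMod N) * h1
      - ((u : ZMod N) - v) * hd
  · rintro ⟨v, hv⟩
    obtain ⟨g, hg0, hg1⟩ := exists_col_lift N v hv
    set x : SL(2, ℤ) ⧸ Gamma0 N := (g : SL(2, ℤ) ⧸ Gamma0 N) with hx
    set r := x.out with hr
    have h1 : (r : SL(2, ℤ) ⧸ Gamma0 N) = (g : SL(2, ℤ) ⧸ Gamma0 N) := x.out_eq'
    rw [mk_eq_mk_iff] at h1
    have hdr := det_mod N r
    have hdg := det_mod N g
    -- `u = g00 * r11 - g10 * r01`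
    have e1 : (((g 0 0 : ℤ) : ZMod N) * ((r 1 1 : ℤ) : ZMod N) -
        ((g 1 0 : ℤ) : ZMod N) * ((r 0 1 : ℤ) : ZMod N)) *
        (((r 0 0 : ℤ) : ZMod N) * ((g 1 1 : ℤ) : ZMod N) -
        ((r 1 0 : ℤ) : ZMod N) * ((g 0 1 : ℤ) : ZMod N)) = 1 := by
      linear_combination (((g 1 1 : ℤ) : ZMod N) * ((g 0 0 : ℤ) : ZMod N)
        - ((g 0 1 : ℤ) : ZMod N) * ((g 1 0 : ℤ) : ZMod N)) * hdr
        + (((g 0 1 : ℤ) : ZMod N) * ((r 1 1 : ℤ) : ZMod N)
        - ((g 1 1 : ℤ) : ZMod N) * ((r 0 1 : ℤ) : ZMod N)) * h1 + hdg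
    refine ⟨⟨x, ⟨((g 0 0 : ℤ) : ZMod N) * ((r 1 1 : ℤ) : ZMod N) -
      ((g 1 0 : ℤ) : ZMod N) * ((r 0 1 : ℤ) : ZMod N),
      ((r 0 0 : ℤ) : ZMod N) * ((g 1 1 : ℤ) : ZMod N) -
      ((r 1 0 : ℤ) : ZMod N) * ((g 0 1 : ℤ) : ZMod N), e1, by rw [mul_comm]; exact e1⟩⟩, ?_⟩
    apply Subtype.ext
    apply Prod.ext
    · show (((g 0 0 : ℤ) : ZMod N) * ((r 1 1 : ℤ) : ZMod N) -
        ((g 1 0 : ℤ) : ZMod N) * ((r 0 1 : ℤ) : ZMod N)) * ((r 0 0 : ℤ) : ZMod N) = v.1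
      rw [← hg0]
      linear_combination ((g 0 0 : ℤ) : ZMod N) * hdr - ((r 0 1 : ℤ) : ZMod N) * h1
    · show (((g 0 0 : ℤ) : ZMod N) * ((r 1 1 : ℤ) : ZMod N) -
        ((g 1 0 : ℤ) : ZMod N) * ((r 0 1 : ℤ) : ZMod N)) * ((r 1 0 : ℤ) : ZMod N) = v.2
      rw [← hg1]
      linear_combination ((g 1 0 : ℤ) : ZMod N) * hdr - ((r 1 1 : ℤ) : ZMod N) * h1

lemma card_uni (N : ℕ) [NeZero N] :
    Nat.card (Uni (ZMod N)) = Nat.card (SL(2, ℤ) ⧸ Gamma0 N) * Nat.totient N := by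
  rw [← Nat.card_congr (Equiv.ofBijective _ (toUni_bijective N)), Nat.card_prod,
    Nat.card_eq_fintype_card (α := (ZMod N)ˣ), ZMod.card_units_eq_totient]

/-! ### Multiplicativity -/

/-- unimodular vectors and ring isomorphisms -/
def uniCongr {R S : Type*} [CommRing R] [CommRing S] (e : R ≃+* S) : Uni R ≃ Uni S where
  toFun v := ⟨(e v.1.1, e v.1.2), v.2.map e.toRingHom⟩
  invFun v := ⟨(e.symm v.1.1, e.symm v.1.2), v.2.map e.symm.toRingHom⟩
  left_inv v := by apply Subtype.ext; apply Prod.ext <;> simp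
  right_inv v := by apply Subtype.ext; apply Prod.ext <;> simp

/-- unimodular vectors of a product -/
def uniProd {R S : Type*} [CommRing R] [CommRing S] : Uni (R × S) ≃ Uni R × Uni S where
  toFun v := (⟨(v.1.1.1, v.1.2.1), v.2.map (RingHom.fst R S)⟩,
    ⟨(v.1.1.2, v.1.2.2), v.2.map (RingHom.snd R S)⟩)
  invFun v := ⟨((v.1.1.1, v.2.1.1), (v.1.1.2, v.2.1.2)), by
    obtain ⟨x, y, hxy⟩ := v.1.2
    obtain ⟨z, w, hzw⟩ := v.2.2
    exact ⟨(x, z), (y, w), Prod.ext hxy hzw⟩⟩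
  left_inv _ := rfl
  right_inv _ := rfl

lemma card_uni_mul {m n : ℕ} (h : m.Coprime n) :
    Nat.card (Uni (ZMod (m * n))) = Nat.card (Uni (ZMod m)) * Nat.card (Uni (ZMod n)) := by
  rw [Nat.card_congr (uniCongr (ZMod.chineseRemainder h)), Nat.card_congr uniProd, Nat.card_prod]

/-- complement: non-unimodular vectors in a local ring. -/
lemma card_uni_prime_pow {p : ℕ} (hp : p.Prime) (r : ℕ) :
    Nat.card (Uni (ZMod (p ^ (r + 1)))) + p ^ (2 * r) = p ^ (2 * (r + 1)) := by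
  haveI : NeZero (p ^ (r + 1)) := ⟨pow_ne_zero _ hp.ne_zero⟩
  haveI : Fact (1 < p ^ (r + 1)) := ⟨Nat.one_lt_pow (by omega) hp.one_lt⟩
  set R := ZMod (p ^ (r + 1)) with hR
  have hpr : p ∣ p ^ (r + 1) := dvd_pow_self p (by omega)
  -- non units
  have hunit : ∀ x : R, ¬ IsUnit x ↔ (ZMod.castHom hpr (ZMod p)) x = 0 := by
    intro x
    obtain ⟨n, rfl⟩ := ZMod.natCast_zmod_surjective x
    rw [ZMod.isUnit_iff_coprime, map_natCast, ZMod.natCast_eq_zero_iff,
      Nat.coprime_pow_right_iff (by omega), Nat.coprime_comm, hp.coprime_iff_not_dvd, not_not]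
  have hiff : ∀ v : R × R, ¬ IsCoprime v.1 v.2 ↔ (¬ IsUnit v.1 ∧ ¬ IsUnit v.2) := by
    intro v
    constructor
    · intro h
      refine ⟨fun h1 => h ?_, fun h1 => h ?_⟩
      · obtain ⟨u, hu⟩ := h1
        exact ⟨((u⁻¹ : Rˣ) : R), 0, by rw [← hu, Units.inv_mul, zero_mul, add_zero]⟩
      · obtain ⟨u, hu⟩ := h1
        exact ⟨0, ((u⁻¹ : Rˣ) : R), by rw [← hu, Units.inv_mul, zero_mul, zero_add]⟩
    · rintro ⟨h1, h2⟩ ⟨x, y, hxy⟩
      rw [hunit] at h1 h2
      have h3 := congrArg (ZMod.castHom hpr (ZMod p)) hxy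
      rw [map_add, map_mul, map_mul, h1, h2, map_one, mul_zero, mul_zero, add_zero] at h3
      haveI : Fact p.Prime := ⟨hp⟩
      exact zero_ne_one h3
  have hcardnon : Nat.card {x : R // ¬ IsUnit x} = p ^ r := by
    have h1 : Nat.card {x : R // ¬ IsUnit x} + Nat.card {x : R // IsUnit x} = p ^ (r + 1) := by
      rw [add_comm, Nat.card_eq_fintype_card, Nat.card_eq_fintype_card,
        Fintype.card_subtype_compl, ZMod.card]
      have : Fintype.card {x : R // IsUnit x} ≤ p ^ (r + 1) := by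
        calc Fintype.card {x : R // IsUnit x} ≤ Fintype.card R := Fintype.card_subtype_le _
          _ = _ := ZMod.card _
      omega
    have h2 : Nat.card {x : R // IsUnit x} = Nat.totient (p ^ (r + 1)) := by
      rw [← ZMod.card_units_eq_totient, ← Nat.card_eq_fintype_card (α := Rˣ)]
      exact Nat.card_congr (Equiv.ofBijective (fun x : {x : R // IsUnit x} => x.2.unit) ⟨by
        intro x y hxy
        exact Subtype.ext (by simpa using congrArg Units.val hxy), by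
        intro u
        exact ⟨⟨u, u.isUnit⟩, Units.ext rfl⟩⟩)
    rw [h2, Nat.totient_prime_pow_succ hp] at h1
    have h3 : p ^ (r + 1) = p ^ r + p ^ r * (p - 1) := by
      obtain ⟨q, rfl⟩ : ∃ q, p = q + 1 := ⟨p - 1, by have := hp.pos; omega⟩
      simp only [Nat.add_sub_cancel]
      ring
    omega
  have hcompl : Nat.card {v : R × R // ¬ IsCoprime v.1 v.2} = p ^ (2 * r) := by
    calc Nat.card {v : R × R // ¬ IsCoprime v.1 v.2}
        = Nat.card ({x : R // ¬ IsUnit x} × {x : R // ¬ IsUnit x}) :=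
          Nat.card_congr ⟨fun v => (⟨v.1.1, ((hiff _).1 v.2).1⟩, ⟨v.1.2, ((hiff _).1 v.2).2⟩),
            fun v => ⟨(v.1.1, v.2.1), (hiff _).2 ⟨v.1.2, v.2.2⟩⟩, fun _ => rfl, fun _ => rfl⟩
      _ = p ^ (2 * r) := by rw [Nat.card_prod, hcardnon]; ring
  classical
  have hRcard : Fintype.card (R × R) = p ^ (2 * (r + 1)) := by
    rw [Fintype.card_prod]
    have : Fintype.card R = p ^ (r + 1) := ZMod.card _
    rw [this]
    ring
  have h1 : Nat.card {v : R × R // ¬ IsCoprime v.1 v.2}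
      = Fintype.card (R × R) - Fintype.card {v : R × R // IsCoprime v.1 v.2} := by
    rw [Nat.card_eq_fintype_card]
    exact Fintype.card_subtype_compl _
  have h2 : Fintype.card {v : R × R // IsCoprime v.1 v.2} ≤ Fintype.card (R × R) :=
    Fintype.card_subtype_le _
  have h3 : Nat.card (Uni (ZMod (p ^ (r + 1))))
      = Fintype.card {v : R × R // IsCoprime v.1 v.2} := Nat.card_eq_fintype_card
  rw [h3]
  omega

/-! ### `dedekindPsi` -/

/-- The indicator of squarefree numbers. -/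
def sqfInd : ArithmeticFunction ℕ :=
  ⟨fun n => if Squarefree n then 1 else 0, by simp⟩

lemma sqfInd_apply (n : ℕ) : sqfInd n = if Squarefree n then 1 else 0 := rfl

lemma isMultiplicative_sqfInd : sqfInd.IsMultiplicative := by
  constructor
  · simp [sqfInd_apply]
  · intro m n h
    simp only [sqfInd_apply, Nat.squarefree_mul h]
    by_cases h1 : Squarefree m <;> by_cases h2 : Squarefree n <;> simp [h1, h2]

lemma dedekindPsi_eq (n : ℕ) : ModularCurve.dedekindPsi n = (sqfInd * ArithmeticFunction.id) n := by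
  rw [ArithmeticFunction.mul_apply, ModularCurve.dedekindPsi,
    Nat.sum_divisorsAntidiagonal (fun x y => sqfInd x * ArithmeticFunction.id y),
    Finset.sum_filter]
  refine Finset.sum_congr rfl fun d _ => ?_
  rw [sqfInd_apply, ArithmeticFunction.id_apply]
  split_ifs <;> simp

lemma dedekindPsi_mul {m n : ℕ} (h : m.Coprime n) :
    ModularCurve.dedekindPsi (m * n) = ModularCurve.dedekindPsi m * ModularCurve.dedekindPsi n := by
  rw [dedekindPsi_eq, dedekindPsi_eq, dedekindPsi_eq]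
  exact (isMultiplicative_sqfInd.mul ArithmeticFunction.isMultiplicative_id).2 h

lemma dedekindPsi_prime_pow {p : ℕ} (hp : p.Prime) (r : ℕ) :
    ModularCurve.dedekindPsi (p ^ (r + 1)) = p ^ (r + 1) + p ^ r := by
  rw [ModularCurve.dedekindPsi, Finset.sum_filter, Nat.sum_divisors_prime_pow hp,
    Finset.sum_range_succ', Finset.sum_range_succ']
  have h0 : ∑ k ∈ Finset.range r, (if Squarefree (p ^ (k + 1 + 1)) then p ^ (r + 1) / p ^ (k + 1 + 1) else 0) = 0 := by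
    refine Finset.sum_eq_zero fun k _ => ?_
    rw [if_neg]
    intro h
    have h1 : p * p ∣ p ^ (k + 1 + 1) := ⟨p ^ k, by ring⟩
    exact hp.not_isUnit (h p h1)
  rw [h0]
  simp only [zero_add, pow_zero, pow_one]
  rw [if_pos hp.prime.squarefree, if_pos squarefree_one, Nat.div_one, pow_succ,
    Nat.mul_div_cancel _ hp.pos]
  ring

lemma card_uni_eq (N : ℕ) (hN : N ≠ 0) :
    Nat.card (Uni (ZMod N)) = ModularCurve.dedekindPsi N * Nat.totient N := by
  induction N using Nat.recOnPosPrimePosCoprime with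
  | prime_pow p n hp hn =>
    obtain ⟨r, rfl⟩ : ∃ r, n = r + 1 := ⟨n - 1, by omega⟩
    have h1 := card_uni_prime_pow hp r
    rw [dedekindPsi_prime_pow hp, Nat.totient_prime_pow_succ hp]
    have h2 : (p ^ (r + 1) + p ^ r) * (p ^ r * (p - 1)) + p ^ (2 * r) = p ^ (2 * (r + 1)) := by
      obtain ⟨q, rfl⟩ : ∃ q, p = q + 1 := ⟨p - 1, by have := hp.pos; omega⟩
      simp only [Nat.add_sub_cancel]
      ring
    omega
  | zero => exact absurd rfl hN
  | one =>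
    have h1 : Nat.card (Uni (ZMod 1)) = 1 := by
      rw [Nat.card_eq_one_iff_unique]
      refine ⟨inferInstance, ⟨⟨(0, 0), ⟨0, 0, Subsingleton.elim _ _⟩⟩⟩⟩
    rw [h1]
    simp
  | coprime a b ha hb hab iha ihb =>
    rw [card_uni_mul hab, dedekindPsi_mul hab, Nat.totient_mul hab, iha (by omega), ihb (by omega)]
    ring

theorem card_quot (N : ℕ) [NeZero N] :
    Nat.card (SL(2, ℤ) ⧸ Gamma0 N) = ModularCurve.dedekindPsi N := by
  have h1 := card_uni N
  rw [card_uni_eq N (NeZero.ne N)] at h1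
  exact (Nat.eq_of_mul_eq_mul_right (Nat.totient_pos.2 (Nat.pos_of_ne_zero (NeZero.ne N))) h1).symm

theorem index_Gamma0 (N : ℕ) [NeZero N] : (Gamma0 N).index = ModularCurve.dedekindPsi N :=
  card_quot N

end Fermat.Agent.Gamma0Comb
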