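import Mathlib
import Fermat.Prelude.Def_ModularCurve_GenusNumerics

/-!
# Combinatorics of the coset space `SL(2, ℤ) ⧸ Γ₀(N)`: basic criterion and fixed points
-/

set_option autoImplicit false

namespace Fermat.Agent.Gamma0Comb

open CongruenceSubgroup
open scoped MatrixGroups

variable {N : ℕ}

/-- Equality criterion for left cosets of `Γ₀(N)`. -/
lemma mk_eq_mk_iff (g h : SL(2, ℤ)) :
    ((g : SL(2, ℤ) ⧸ Gamma0 N) = (h : SL(2, ℤ) ⧸ Gamma0 N)) ↔
      ((g 0 0 : ℤ) : ZMod N) * ((h 1 0 : ℤ) : ZMod N) -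
        ((g 1 0 : ℤ) : ZMod N) * ((h 0 0 : ℤ) : ZMod N) = 0 := by
  rw [QuotientGroup.eq, Gamma0_mem]
  have : (g⁻¹ * h) 1 0 = - g 1 0 * h 0 0 + g 0 0 * h 1 0 := by
    rw [Matrix.SpecialLinearGroup.coe_mul, Matrix.mul_apply, Fin.sum_univ_two,
      Matrix.SpecialLinearGroup.SL2_inv_expl]
    simp
  rw [this]
  push_cast
  constructor
  · intro h; rw [← h]; ring
  · intro h; rw [← h]; ring

/-- determinant relation mod `N` -/
lemma det_mod (N : ℕ) (g : SL(2, ℤ)) :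
    ((g 0 0 : ℤ) : ZMod N) * ((g 1 1 : ℤ) : ZMod N) -
        ((g 0 1 : ℤ) : ZMod N) * ((g 1 0 : ℤ) : ZMod N) = 1 := by
  have h := g.det_coe
  rw [Matrix.det_fin_two] at h
  have := congrArg (fun x : ℤ => (x : ZMod N)) h
  simpa using this

lemma S_mul_zero_zero (g : SL(2, ℤ)) : (ModularGroup.S * g) 0 0 = - g 1 0 := by
  rw [Matrix.SpecialLinearGroup.coe_mul, ModularGroup.coe_S]
  simp [Matrix.mul_apply, Fin.sum_univ_two]

lemma S_mul_one_zero (g : SL(2, ℤ)) : (ModularGroup.S * g) 1 0 = g 0 0 := by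
  rw [Matrix.SpecialLinearGroup.coe_mul, ModularGroup.coe_S]
  simp [Matrix.mul_apply, Fin.sum_univ_two]

lemma T_mul_zero_zero (g : SL(2, ℤ)) : (ModularGroup.T * g) 0 0 = g 0 0 + g 1 0 := by
  rw [Matrix.SpecialLinearGroup.coe_mul, ModularGroup.coe_T]
  simp [Matrix.mul_apply, Fin.sum_univ_two]

lemma T_mul_one_zero (g : SL(2, ℤ)) : (ModularGroup.T * g) 1 0 = g 1 0 := by
  rw [Matrix.SpecialLinearGroup.coe_mul, ModularGroup.coe_T]
  simp [Matrix.mul_apply, Fin.sum_univ_two]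

lemma T_zpow_mul_zero_zero (n : ℤ) (g : SL(2, ℤ)) :
    (ModularGroup.T ^ n * g) 0 0 = g 0 0 + n * g 1 0 := by
  rw [Matrix.SpecialLinearGroup.coe_mul, ModularGroup.coe_T_zpow]
  simp [Matrix.mul_apply, Fin.sum_univ_two]

lemma T_zpow_mul_one_zero (n : ℤ) (g : SL(2, ℤ)) :
    (ModularGroup.T ^ n * g) 1 0 = g 1 0 := by
  rw [Matrix.SpecialLinearGroup.coe_mul, ModularGroup.coe_T_zpow]
  simp [Matrix.mul_apply, Fin.sum_univ_two]

/-- the representative `(u, -1; 1, 0)` of the point `(u : 1)`. -/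
def rep (u : ℤ) : SL(2, ℤ) := ⟨!![u, -1; 1, 0], by simp [Matrix.det_fin_two]⟩

@[simp] lemma rep_zero_zero (u : ℤ) : rep u 0 0 = u := rfl
@[simp] lemma rep_one_zero (u : ℤ) : rep u 1 0 = 1 := rfl

lemma S_smul_mk_eq_iff (g : SL(2, ℤ)) :
    (ModularGroup.S • (g : SL(2, ℤ) ⧸ Gamma0 N) = (g : SL(2, ℤ) ⧸ Gamma0 N)) ↔
      ((g 0 0 : ℤ) : ZMod N) ^ 2 + ((g 1 0 : ℤ) : ZMod N) ^ 2 = 0 := by
  rw [show ModularGroup.S • (g : SL(2, ℤ) ⧸ Gamma0 N)
    = ((ModularGroup.S * g : SL(2, ℤ)) : SL(2, ℤ) ⧸ Gamma0 N) from rfl, eq_comm, mk_eq_mk_iff,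
    S_mul_zero_zero, S_mul_one_zero]
  push_cast
  rw [show ∀ a c : ZMod N, a * a - c * (-c) = a ^ 2 + c ^ 2 by intros; ring]

lemma ST_smul_mk_eq_iff (g : SL(2, ℤ)) :
    ((ModularGroup.S * ModularGroup.T) • (g : SL(2, ℤ) ⧸ Gamma0 N)
        = (g : SL(2, ℤ) ⧸ Gamma0 N)) ↔
      ((g 0 0 : ℤ) : ZMod N) ^ 2 + ((g 0 0 : ℤ) : ZMod N) * ((g 1 0 : ℤ) : ZMod N)
        + ((g 1 0 : ℤ) : ZMod N) ^ 2 = 0 := by
  rw [show (ModularGroup.S * ModularGroup.T) • (g : SL(2, ℤ) ⧸ Gamma0 N)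
    = ((ModularGroup.S * (ModularGroup.T * g) : SL(2, ℤ)) : SL(2, ℤ) ⧸ Gamma0 N) from by
      rw [← mul_assoc]; rfl, eq_comm, mk_eq_mk_iff,
    S_mul_zero_zero, S_mul_one_zero, T_mul_zero_zero, T_mul_one_zero]
  push_cast
  rw [show ∀ a c : ZMod N, a * (a + c) - c * (-c) = a ^ 2 + a * c + c ^ 2 by intros; ring]

theorem card_fix_S (N : ℕ) :
    Nat.card {x : SL(2, ℤ) ⧸ Gamma0 N // ModularGroup.S • x = x} = ModularCurve.nuTwo N := by
  rw [ModularCurve.nuTwo]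
  symm
  refine Nat.card_congr (Equiv.ofBijective
    (fun u : {x : ZMod N // x ^ 2 + 1 = 0} =>
      (⟨((rep (u.1.cast : ℤ) : SL(2, ℤ)) : SL(2, ℤ) ⧸ Gamma0 N), ?_⟩ :
        {x : SL(2, ℤ) ⧸ Gamma0 N // ModularGroup.S • x = x})) ⟨?_, ?_⟩)
  · rw [S_smul_mk_eq_iff]
    simpa using u.2
  · rintro ⟨u, hu⟩ ⟨v, hv⟩ h
    have h1 := Subtype.ext_iff.1 h
    simp only [mk_eq_mk_iff] at h1
    simp only [rep_zero_zero, rep_one_zero, ZMod.intCast_cast, ZMod.cast_id', id_eq,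
      Int.cast_one, mul_one, one_mul] at h1
    exact Subtype.ext (sub_eq_zero.1 h1)
  · rintro ⟨x, hx⟩
    obtain ⟨g, rfl⟩ := QuotientGroup.mk_surjective x
    rw [S_smul_mk_eq_iff] at hx
    have hdet := det_mod N g
    set a : ZMod N := ((g 0 0 : ℤ) : ZMod N)
    set c : ZMod N := ((g 1 0 : ℤ) : ZMod N)
    set b : ZMod N := ((g 0 1 : ℤ) : ZMod N)
    set d : ZMod N := ((g 1 1 : ℤ) : ZMod N)
    -- `c` is a unit with inverse `c * (-(d^2) - b^2) - 2 b`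
    have hc : c * (-2 * b - (b ^ 2 + d ^ 2) * c) = 1 := by
      have h2 : (a * d - b * c) * (a * d - b * c) = 1 := by rw [hdet, one_mul]
      have h3 : a * d = 1 + b * c := by rw [← hdet]; ring
      have h4 : (a * d) * (a * d) = -(c ^ 2 * d ^ 2) := by
        have : a ^ 2 = - c ^ 2 := by rw [← sub_eq_zero]; rw [← hx]; ring
        calc (a * d) * (a * d) = a ^ 2 * d ^ 2 := by ring
          _ = _ := by rw [this]; ring
      rw [h3] at h4
      have h5 : (1 + b * c) * (1 + b * c) + c ^ 2 * d ^ 2 = 0 := by rw [h4]; ring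
      have h6 : c * (-2 * b - (b ^ 2 + d ^ 2) * c)
        = 1 - ((1 + b * c) * (1 + b * c) + c ^ 2 * d ^ 2) := by ring
      rw [h6, h5, sub_zero]
    set c' : ZMod N := (-2 * b - (b ^ 2 + d ^ 2) * c)
    refine ⟨⟨a * c', ?_⟩, ?_⟩
    · have : (a * c') ^ 2 + 1 = (a ^ 2 + c ^ 2) * c' ^ 2 := by
        have h1 : (1 : ZMod N) = (c * c') ^ 2 := by rw [hc, one_pow]
        calc (a * c') ^ 2 + 1 = (a * c') ^ 2 + (c * c') ^ 2 := by rw [← h1]
          _ = _ := by ring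
      rw [this, hx, zero_mul]
    · refine Subtype.ext ?_
      simp only [mk_eq_mk_iff]
      simp only [rep_zero_zero, rep_one_zero, ZMod.intCast_cast, ZMod.cast_id', id_eq,
        Int.cast_one, one_mul]
      have : a * c' * c - a = a * (c * c' - 1) := by ring
      rw [this, hc, sub_self, mul_zero]

theorem card_fix_ST (N : ℕ) :
    Nat.card {x : SL(2, ℤ) ⧸ Gamma0 N // (ModularGroup.S * ModularGroup.T) • x = x}
      = ModularCurve.nuThree N := by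
  rw [ModularCurve.nuThree]
  symm
  refine Nat.card_congr (Equiv.ofBijective
    (fun u : {x : ZMod N // x ^ 2 + x + 1 = 0} =>
      (⟨((rep (u.1.cast : ℤ) : SL(2, ℤ)) : SL(2, ℤ) ⧸ Gamma0 N), ?_⟩ :
        {x : SL(2, ℤ) ⧸ Gamma0 N // (ModularGroup.S * ModularGroup.T) • x = x})) ⟨?_, ?_⟩)
  · rw [ST_smul_mk_eq_iff]
    simpa using u.2
  · rintro ⟨u, hu⟩ ⟨v, hv⟩ h
    have h1 := Subtype.ext_iff.1 h
    simp only [mk_eq_mk_iff] at h1
    simp only [rep_zero_zero, rep_one_zero, ZMod.intCast_cast, ZMod.cast_id', id_eq,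
      Int.cast_one, mul_one, one_mul] at h1
    exact Subtype.ext (sub_eq_zero.1 h1)
  · rintro ⟨x, hx⟩
    obtain ⟨g, rfl⟩ := QuotientGroup.mk_surjective x
    rw [ST_smul_mk_eq_iff] at hx
    have hdet := det_mod N g
    set a : ZMod N := ((g 0 0 : ℤ) : ZMod N)
    set c : ZMod N := ((g 1 0 : ℤ) : ZMod N)
    set b : ZMod N := ((g 0 1 : ℤ) : ZMod N)
    set d : ZMod N := ((g 1 1 : ℤ) : ZMod N)
    -- `c` is a unit: `1 = a d - b c`, `(ad)^2 = - c (a + c) d^2`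
    have hc : c * (-2 * b - b ^ 2 * c - (a + c) * d ^ 2) = 1 := by
      have h3 : a * d = 1 + b * c := by rw [← hdet]; ring
      have h4 : (a * d) * (a * d) = -(c * (a + c) * d ^ 2) := by
        have : a ^ 2 = - (c * (a + c)) := by rw [← sub_eq_zero]; rw [← hx]; ring
        calc (a * d) * (a * d) = a ^ 2 * d ^ 2 := by ring
          _ = _ := by rw [this]; ring
      rw [h3] at h4
      have h5 : (1 + b * c) * (1 + b * c) + c * (a + c) * d ^ 2 = 0 := by rw [h4]; ring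
      have h6 : c * (-2 * b - b ^ 2 * c - (a + c) * d ^ 2)
        = 1 - ((1 + b * c) * (1 + b * c) + c * (a + c) * d ^ 2) := by ring
      rw [h6, h5, sub_zero]
    set c' : ZMod N := (-2 * b - b ^ 2 * c - (a + c) * d ^ 2)
    refine ⟨⟨a * c', ?_⟩, ?_⟩
    · have : (a * c') ^ 2 + a * c' + 1 = (a ^ 2 + a * c + c ^ 2) * c' ^ 2 := by
        have h1 : (1 : ZMod N) = (c * c') ^ 2 := by rw [hc, one_pow]
        calc (a * c') ^ 2 + a * c' + 1 = (a * c') ^ 2 + (a * c') * (c * c') + (c * c') ^ 2 := by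
              rw [← h1, hc, mul_one]
          _ = _ := by ring
      rw [this, hx, zero_mul]
    · refine Subtype.ext ?_
      simp only [mk_eq_mk_iff]
      simp only [rep_zero_zero, rep_one_zero, ZMod.intCast_cast, ZMod.cast_id', id_eq,
        Int.cast_one, one_mul]
      have : a * c' * c - a = a * (c * c' - 1) := by ring
      rw [this, hc, sub_self, mul_zero]

end Fermat.Agent.Gamma0Comb
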