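import Fermat.Agent.Gamma0Comb.Basic

/-!
# Number of `T`-orbits on `SL(2, ℤ) ⧸ Γ₀(N)`
-/

set_option autoImplicit false

namespace Fermat.Agent.Gamma0Comb

open CongruenceSubgroup
open scoped MatrixGroups

/-- The set of `T`-orbits on `SL(2, ℤ) ⧸ Γ₀(N)` (the cusps of `Γ₀(N)`). -/
abbrev TOrb (N : ℕ) : Type :=
  MulAction.orbitRel.Quotient (Subgroup.zpowers ModularGroup.T) (SL(2, ℤ) ⧸ Gamma0 N)

/-- The orbit of the coset of `g`. -/
def orb (N : ℕ) (g : SL(2, ℤ)) : TOrb N := Quotient.mk'' (g : SL(2, ℤ) ⧸ Gamma0 N)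

lemma orb_surjective (N : ℕ) : Function.Surjective (orb N) := by
  intro y
  induction y using Quotient.inductionOn' with
  | h x =>
    obtain ⟨g, rfl⟩ := QuotientGroup.mk_surjective x
    exact ⟨g, rfl⟩

lemma orb_eq_iff {N : ℕ} (g h : SL(2, ℤ)) :
    orb N g = orb N h ↔ ∃ n : ℤ, (N : ℤ) ∣ (h 0 0 + n * h 1 0) * g 1 0 - h 1 0 * g 0 0 := by
  rw [orb, orb, Quotient.eq'', MulAction.orbitRel_apply, MulAction.mem_orbit_iff]
  constructor
  · rintro ⟨⟨t, ht⟩, h1⟩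
    obtain ⟨n, rfl⟩ := Subgroup.mem_zpowers_iff.1 ht
    refine ⟨n, ?_⟩
    have h2 : ((ModularGroup.T ^ n * h : SL(2, ℤ)) : SL(2, ℤ) ⧸ Gamma0 N)
      = (g : SL(2, ℤ) ⧸ Gamma0 N) := h1
    rw [mk_eq_mk_iff, T_zpow_mul_zero_zero, T_zpow_mul_one_zero] at h2
    rw [← ZMod.intCast_zmod_eq_zero_iff_dvd]
    push_cast
    push_cast at h2
    exact h2
  · rintro ⟨n, hn⟩
    refine ⟨⟨ModularGroup.T ^ n, Subgroup.mem_zpowers_iff.2 ⟨n, rfl⟩⟩, ?_⟩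
    show ((ModularGroup.T ^ n * h : SL(2, ℤ)) : SL(2, ℤ) ⧸ Gamma0 N)
      = (g : SL(2, ℤ) ⧸ Gamma0 N)
    rw [mk_eq_mk_iff, T_zpow_mul_zero_zero, T_zpow_mul_one_zero]
    rw [← ZMod.intCast_zmod_eq_zero_iff_dvd] at hn
    push_cast at hn
    push_cast
    exact hn

lemma exists_lift {d e : ℕ} (hd : d ≠ 0) (h : e ∣ d) (u : (ZMod e)ˣ) :
    ∃ a : ℤ, IsCoprime a (d : ℤ) ∧ ((a : ℤ) : ZMod e) = u := by
  haveI : NeZero d := ⟨hd⟩
  obtain ⟨u', hu'⟩ := ZMod.unitsMap_surjective h u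
  refine ⟨((u' : ZMod d).val : ℤ), ?_, ?_⟩
  · rw [Nat.isCoprime_iff_coprime]
    exact ZMod.val_coe_unit_coprime u'
  · rw [← hu', ZMod.unitsMap_val]
    rw [Int.cast_natCast, ZMod.natCast_val]

lemma exists_rep (N : ℕ) [NeZero N] (d : {d // d ∈ N.divisors}) (u : (ZMod (Nat.gcd d.1 (N / d.1)))ˣ) :
    ∃ g : SL(2, ℤ), g 1 0 = (d.1 : ℤ) ∧ ((g 0 0 : ℤ) : ZMod (Nat.gcd d.1 (N / d.1))) = u := by
  have hd : d.1 ≠ 0 := by
    have := Nat.pos_of_mem_divisors d.2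
    omega
  obtain ⟨a, ha, hau⟩ := exists_lift hd (Nat.gcd_dvd_left d.1 (N / d.1)) u
  obtain ⟨g, hg0, hg1⟩ := ha.exists_SL2_col 0
  exact ⟨g, hg1, by rw [hg0, hau]⟩

lemma isCoprime_col (g : SL(2, ℤ)) : IsCoprime (g 0 0) (g 1 0) := by
  have h := g.det_coe
  rw [Matrix.det_fin_two] at h
  exact ⟨g 1 1, - g 0 1, by linear_combination h⟩

/-- The bijection from pairs `(d, u)` to `T`-orbits. -/
noncomputable def param (N : ℕ) [NeZero N] :
    (Σ d : {d // d ∈ N.divisors}, (ZMod (Nat.gcd d.1 (N / d.1)))ˣ) → TOrb N :=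
  fun x => orb N (exists_rep N x.1 x.2).choose

lemma param_injective (N : ℕ) [NeZero N] : Function.Injective (param N) := by
  rintro ⟨d, u⟩ ⟨d', u'⟩ h
  obtain ⟨hg1, hg0⟩ := (exists_rep N d u).choose_spec
  obtain ⟨hh1, hh0⟩ := (exists_rep N d' u').choose_spec
  rw [param, param, orb_eq_iff] at h
  simp only at h
  set g := (exists_rep N d u).choose
  set k := (exists_rep N d' u').choose
  obtain ⟨n, hn⟩ := h
  rw [hg1, hh1] at hn
  have hgc := isCoprime_col g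
  have hkc := isCoprime_col k
  rw [hg1] at hgc
  rw [hh1] at hkc
  have hdN : (d.1 : ℤ) ∣ N := Int.natCast_dvd_natCast.2 (Nat.dvd_of_mem_divisors d.2)
  have hd'N : (d'.1 : ℤ) ∣ N := Int.natCast_dvd_natCast.2 (Nat.dvd_of_mem_divisors d'.2)
  have hdpos : 0 < d.1 := Nat.pos_of_mem_divisors d.2
  have h1 : (d.1 : ℤ) ∣ d'.1 := by
    have h2 : (d.1 : ℤ) ∣ (d'.1 : ℤ) * g 0 0 := by
      have h3 := hdN.trans hn
      have h4 : (d.1 : ℤ) ∣ (k 0 0 + n * (d'.1 : ℤ)) * (d.1 : ℤ) := Dvd.intro_left _ rfl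
      have := dvd_sub h4 h3
      simpa using this
    exact hgc.symm.dvd_of_dvd_mul_right h2
  have h2 : (d'.1 : ℤ) ∣ d.1 := by
    have h2 : (d'.1 : ℤ) ∣ (k 0 0 + n * (d'.1 : ℤ)) * (d.1 : ℤ) := by
      have h3 := hd'N.trans hn
      have h4 : (d'.1 : ℤ) ∣ (d'.1 : ℤ) * g 0 0 := Dvd.intro _ rfl
      have := dvd_add h3 h4
      simpa using this
    have h5 : IsCoprime (d'.1 : ℤ) (k 0 0 + n * (d'.1 : ℤ)) := by
      have := (IsCoprime.add_mul_right_left hkc n).symm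
      exact this
    exact h5.dvd_of_dvd_mul_left h2
  have hdd : d = d' := by
    apply Subtype.ext
    exact Nat.dvd_antisymm (Int.natCast_dvd_natCast.1 h1) (Int.natCast_dvd_natCast.1 h2)
  subst hdd
  congr 1
  apply Units.ext
  rw [← hg0, ← hh0, eq_comm, ZMod.intCast_eq_intCast_iff_dvd_sub]
  have h3 : (k 0 0 + n * (d.1 : ℤ)) * (d.1 : ℤ) - (d.1 : ℤ) * g 0 0
      = (d.1 : ℤ) * (k 0 0 - g 0 0 + n * d.1) := by ring
  rw [h3] at hn
  have hN : (N : ℤ) = (d.1 : ℤ) * ((N / d.1 : ℕ) : ℤ) := by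
    rw [← Nat.cast_mul, Nat.mul_div_cancel' (Nat.dvd_of_mem_divisors d.2)]
  rw [hN] at hn
  have h4 : ((N / d.1 : ℕ) : ℤ) ∣ k 0 0 - g 0 0 + n * d.1 :=
    Int.dvd_of_mul_dvd_mul_left (by exact_mod_cast hdpos.ne') hn
  have h5 : ((Nat.gcd d.1 (N / d.1) : ℕ) : ℤ) ∣ ((N / d.1 : ℕ) : ℤ) :=
    Int.natCast_dvd_natCast.2 (Nat.gcd_dvd_right _ _)
  have h6 : ((Nat.gcd d.1 (N / d.1) : ℕ) : ℤ) ∣ (d.1 : ℤ) :=
    Int.natCast_dvd_natCast.2 (Nat.gcd_dvd_left _ _)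
  have h7 := h5.trans h4
  have h8 : ((Nat.gcd d.1 (N / d.1) : ℕ) : ℤ) ∣ n * (d.1 : ℤ) := h6.mul_left n
  have h9 := dvd_sub h7 h8
  have h10 : g 0 0 - k 0 0 = -(k 0 0 - g 0 0 + n * (d.1 : ℤ) - n * (d.1 : ℤ)) := by ring
  have h11 : k 0 0 - g 0 0 = (k 0 0 - g 0 0 + n * (d.1 : ℤ) - n * (d.1 : ℤ)) := by ring
  first
    | (rw [h11]; exact h9)
    | (rw [h10]; exact (dvd_neg).2 h9)

lemma param_surjective (N : ℕ) [NeZero N] : Function.Surjective (param N) := by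
  intro y
  obtain ⟨g, rfl⟩ := orb_surjective N y
  have hgc := isCoprime_col g
  set a := g 0 0 with ha
  set c := g 1 0 with hc
  -- `d = gcd (c, N)`
  have hN0 : N ≠ 0 := NeZero.ne N
  set d : ℕ := Int.gcd c N with hd
  have hdpos : 0 < d := Int.gcd_pos_of_ne_zero_right _ (by exact_mod_cast hN0)
  have hdN : d ∣ N := Int.natCast_dvd_natCast.1 (Int.gcd_dvd_right c N)
  have hdmem : d ∈ N.divisors := Nat.mem_divisors.2 ⟨hdN, hN0⟩
  obtain ⟨γ, hγ⟩ : (d : ℤ) ∣ c := Int.gcd_dvd_left c N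
  obtain ⟨M, hM⟩ : d ∣ N := hdN
  have hMdiv : N / d = M := by rw [hM]; exact Nat.mul_div_cancel_left M hdpos
  -- Bezout for `γ`, `M`
  have hcop : IsCoprime γ (M : ℤ) := by
    have h1 : (d : ℤ) = c * Int.gcdA c N + N * Int.gcdB c N := Int.gcd_eq_gcd_ab c N
    rw [hγ, hM] at h1
    refine ⟨Int.gcdA (d * γ) ((d * M : ℕ) : ℤ), Int.gcdB (d * γ) ((d * M : ℕ) : ℤ), ?_⟩
    have h2 : (d : ℤ) * (Int.gcdA (d * γ) ((d * M : ℕ) : ℤ) * γ
      + Int.gcdB (d * γ) ((d * M : ℕ) : ℤ) * M) = d * 1 := by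
      rw [mul_one]
      conv_rhs => rw [h1]
      push_cast
      ring
    exact mul_left_cancel₀ (by exact_mod_cast hdpos.ne') h2
  have hac : IsCoprime a (d : ℤ) := by
    rw [hγ] at hgc
    exact IsCoprime.of_mul_right_left hgc
  -- `e = gcd (d, M)`
  set e : ℕ := Nat.gcd d (N / d) with he
  have hed : (e : ℤ) ∣ d := Int.natCast_dvd_natCast.2 (Nat.gcd_dvd_left _ _)
  have heM : (e : ℤ) ∣ M := by
    rw [he, hMdiv]
    exact Int.natCast_dvd_natCast.2 (Nat.gcd_dvd_right _ _)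
  have hae : IsCoprime a (e : ℤ) := hac.of_isCoprime_of_dvd_right hed
  have hγe : IsCoprime γ (e : ℤ) := hcop.of_isCoprime_of_dvd_right heM
  -- units mod e
  obtain ⟨γ', t, hγ'⟩ := hγe
  have hγ'1 : ((γ' : ℤ) : ZMod e) * ((γ : ℤ) : ZMod e) = 1 := by
    have := congrArg (fun x : ℤ => (x : ZMod e)) hγ'
    simpa using this
  obtain ⟨a', s, ha'⟩ := hae
  have ha'1 : ((a' : ℤ) : ZMod e) * ((a : ℤ) : ZMod e) = 1 := by
    have := congrArg (fun x : ℤ => (x : ZMod e)) ha'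
    simpa using this
  let u : (ZMod e)ˣ := ⟨(a : ZMod e) * (γ' : ZMod e), (a' : ZMod e) * (γ : ZMod e), by
      calc (a : ZMod e) * (γ' : ZMod e) * ((a' : ZMod e) * (γ : ZMod e))
          = ((a' : ZMod e) * (a : ZMod e)) * ((γ' : ZMod e) * (γ : ZMod e)) := by ring
        _ = 1 := by rw [ha'1, hγ'1, one_mul], by
      calc (a' : ZMod e) * (γ : ZMod e) * ((a : ZMod e) * (γ' : ZMod e))
          = ((a' : ZMod e) * (a : ZMod e)) * ((γ' : ZMod e) * (γ : ZMod e)) := by ring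
        _ = 1 := by rw [ha'1, hγ'1, one_mul]⟩
  refine ⟨⟨⟨d, hdmem⟩, u⟩, ?_⟩
  obtain ⟨hg1, hg0⟩ := (exists_rep N ⟨d, hdmem⟩ u).choose_spec
  rw [param, orb_eq_iff]
  simp only
  set k := (exists_rep N ⟨d, hdmem⟩ u).choose
  rw [← ha, ← hc]
  simp only at hg1 hg0
  rw [hg1]
  -- `e ∣ a - γ * k00`
  have h1 : (e : ℤ) ∣ a - γ * k 0 0 := by
    rw [← ZMod.intCast_zmod_eq_zero_iff_dvd]
    push_cast
    rw [hg0]
    show (a : ZMod e) - (γ : ZMod e) * ((a : ZMod e) * (γ' : ZMod e)) = 0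
    calc (a : ZMod e) - (γ : ZMod e) * ((a : ZMod e) * (γ' : ZMod e))
        = (a : ZMod e) * (1 - (γ' : ZMod e) * (γ : ZMod e)) := by ring
      _ = 0 := by rw [hγ'1, sub_self, mul_zero]
  obtain ⟨r, hr⟩ := h1
  -- Bezout: `e = x * d + y * M`, `1 = z * γ + w * M`
  have h2 : (e : ℤ) = d * Nat.gcdA d M + M * Nat.gcdB d M := by
    rw [he, hMdiv]
    exact Nat.gcd_eq_gcd_ab d M
  obtain ⟨z, w, hzw⟩ := hcop
  -- `e = e * z * γ + e * w * M = (d x + M y) z γ + e w M`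
  refine ⟨-(r * Nat.gcdA d M * z), ?_⟩
  rw [hγ, hM]
  refine ⟨r * (Nat.gcdB d M * z * γ + e * w), ?_⟩
  push_cast
  have h3 : a = γ * k 0 0 + e * r := by linear_combination hr
  have h4 : (e : ℤ) = e * (z * γ + w * M) := by rw [hzw, mul_one]
  rw [h3]
  have h5 : (e : ℤ) * r = (e * (z * γ + w * M)) * r := by rw [← h4]
  linear_combination (d : ℤ) * h5 + (d : ℤ) * r * z * γ * h2

theorem card_orbits_T (N : ℕ) [NeZero N] :
    Nat.card (MulAction.orbitRel.Quotient (Subgroup.zpowers ModularGroup.T)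
      (SL(2, ℤ) ⧸ Gamma0 N)) = ModularCurve.cuspCount N := by
  rw [← Nat.card_congr (Equiv.ofBijective (param N) ⟨param_injective N, param_surjective N⟩)]
  haveI : ∀ d : {d // d ∈ N.divisors}, NeZero (Nat.gcd d.1 (N / d.1)) := fun d =>
    ⟨(Nat.gcd_pos_of_pos_left _ (Nat.pos_of_mem_divisors d.2)).ne'⟩
  rw [Nat.card_sigma, ModularCurve.cuspCount]
  rw [← Finset.sum_coe_sort N.divisors (fun d => Nat.totient (Nat.gcd d (N / d)))]
  refine Finset.sum_congr rfl fun d _ => ?_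
  rw [Nat.card_eq_fintype_card, ZMod.card_units_eq_totient]

end Fermat.Agent.Gamma0Comb
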